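import Mathlib

/-!
# S56 / P3, piece SPAN (helper769), part 1: lines in a plane and a Clifford-type lemma

* `scalar_of_three_lines` : an endomorphism of a 2-dimensional space preserving three distinct
  lines is a scalar;
* `irr_of_normal_cyclic` : let `r : Γ →* End_K U`, `dim U = 2`, `K` algebraically closed, be
  irreducible and irreducible on every subgroup of index 2, and let `Δ ⊴ Γ` have cyclic quotient;
  then `r|_Δ` is irreducible.
-/

set_option autoImplicit false
set_option linter.style.haveILetI false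

namespace Fermat.Agent.S56.P3.H769

open Module

section Lines

variable {K : Type*} [Field K] {U : Type*} [AddCommGroup U] [Module K U]

/-- A proper nonzero subspace of a plane is spanned by any of its nonzero vectors. -/
theorem exists_smul_eq_of_mem [FiniteDimensional K U] (h2 : finrank K U = 2)
    {W : Submodule K U} (hbot : W ≠ ⊥) (htop : W ≠ ⊤) {u : U} (hu : u ∈ W) (hu0 : u ≠ 0)
    {x : U} (hx : x ∈ W) : ∃ c : K, x = c • u := by
  have h1 : finrank K W = 1 := by
    have hlt := Submodule.finrank_lt htop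
    have hpos : 0 < finrank K W := by
      rw [Module.finrank_pos_iff]
      exact (Submodule.nontrivial_iff_ne_bot).mpr hbot
    omega
  have hu0' : (⟨u, hu⟩ : W) ≠ 0 := fun h => hu0 (congrArg Subtype.val h)
  obtain ⟨c, hc⟩ := (finrank_eq_one_iff_of_nonzero' (⟨u, hu⟩ : W) hu0').mp h1 ⟨x, hx⟩
  exact ⟨c, (congrArg Subtype.val hc).symm⟩

/-- Two lines of a plane sharing a nonzero vector are equal. -/
theorem eq_of_mem_of_mem [FiniteDimensional K U] (h2 : finrank K U = 2)
    {W W' : Submodule K U} (hbot : W ≠ ⊥) (htop : W ≠ ⊤) (hbot' : W' ≠ ⊥) (htop' : W' ≠ ⊤)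
    {z : U} (hz : z ∈ W) (hz' : z ∈ W') (hz0 : z ≠ 0) : W = W' := by
  apply le_antisymm
  · intro x hx
    obtain ⟨c, rfl⟩ := exists_smul_eq_of_mem h2 hbot htop hz hz0 hx
    exact W'.smul_mem c hz'
  · intro x hx
    obtain ⟨c, rfl⟩ := exists_smul_eq_of_mem h2 hbot' htop' hz' hz0 hx
    exact W.smul_mem c hz

/-- An endomorphism of a plane which preserves three distinct lines is a scalar. -/
theorem scalar_of_three_lines [FiniteDimensional K U] (h2 : finrank K U = 2)
    (T : Module.End K U) {W₁ W₂ W₃ : Submodule K U}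
    (h12 : W₁ ≠ W₂) (h13 : W₁ ≠ W₃) (h23 : W₂ ≠ W₃)
    (b1 : W₁ ≠ ⊥) (t1 : W₁ ≠ ⊤) (b2 : W₂ ≠ ⊥) (t2 : W₂ ≠ ⊤) (b3 : W₃ ≠ ⊥) (t3 : W₃ ≠ ⊤)
    (s1 : ∀ x ∈ W₁, T x ∈ W₁) (s2 : ∀ x ∈ W₂, T x ∈ W₂) (s3 : ∀ x ∈ W₃, T x ∈ W₃) :
    ∃ c : K, ∀ x, T x = c • x := by
  obtain ⟨u, hu, hu0⟩ := Submodule.exists_mem_ne_zero_of_ne_bot b1
  obtain ⟨v, hv, hv0⟩ := Submodule.exists_mem_ne_zero_of_ne_bot b2
  obtain ⟨w, hw, hw0⟩ := Submodule.exists_mem_ne_zero_of_ne_bot b3
  have hli : LinearIndependent K ![u, v] := by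
    rw [LinearIndependent.pair_iff]
    intro s t hst
    by_contra hne
    have hs : s ≠ 0 := by
      intro hs0
      rw [hs0, zero_smul, zero_add] at hst
      rcases smul_eq_zero.mp hst with h | h
      · exact hne ⟨hs0, h⟩
      · exact hv0 h
    have hu2 : u ∈ W₂ := by
      have h1 : s • u = -(t • v) := eq_neg_of_add_eq_zero_left hst
      have h3 : u = (-(s⁻¹ * t)) • v := by
        calc u = s⁻¹ • (s • u) := by rw [smul_smul, inv_mul_cancel₀ hs, one_smul]
          _ = s⁻¹ • (-(t • v)) := by rw [h1]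
          _ = (-(s⁻¹ * t)) • v := by rw [smul_neg, smul_smul, neg_smul]
      rw [h3]
      exact W₂.smul_mem _ hv
    exact h12 (eq_of_mem_of_mem h2 b1 t1 b2 t2 hu hu2 hu0)
  have hspan : Submodule.span K (Set.range ![u, v]) = ⊤ :=
    hli.span_eq_top_of_card_eq_finrank' (by simp [h2])
  have hmem : ∀ x : U, ∃ a b : K, a • u + b • v = x := by
    intro x
    have hx : x ∈ Submodule.span K (Set.range ![u, v]) := by rw [hspan]; trivial
    have hr : Set.range ![u, v] = {u, v} := by
      ext y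
      simp only [Set.mem_range, Set.mem_insert_iff, Set.mem_singleton_iff]
      constructor
      · rintro ⟨i, rfl⟩
        fin_cases i
        · left; rfl
        · right; rfl
      · rintro (rfl | rfl)
        · exact ⟨0, rfl⟩
        · exact ⟨1, rfl⟩
    rw [hr] at hx
    exact Submodule.mem_span_pair.mp hx
  obtain ⟨α, hα⟩ := exists_smul_eq_of_mem h2 b1 t1 hu hu0 (s1 u hu)
  obtain ⟨β, hβ⟩ := exists_smul_eq_of_mem h2 b2 t2 hv hv0 (s2 v hv)
  obtain ⟨γ, hγ⟩ := exists_smul_eq_of_mem h2 b3 t3 hw hw0 (s3 w hw)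
  obtain ⟨a, b, hab⟩ := hmem w
  have ha : a ≠ 0 := by
    intro ha0
    rw [ha0, zero_smul, zero_add] at hab
    have hw2 : w ∈ W₂ := by rw [← hab]; exact W₂.smul_mem _ hv
    exact h23 (eq_of_mem_of_mem h2 b2 t2 b3 t3 hw2 hw hw0)
  have hb : b ≠ 0 := by
    intro hb0
    rw [hb0, zero_smul, add_zero] at hab
    have hw1 : w ∈ W₁ := by rw [← hab]; exact W₁.smul_mem _ hu
    exact h13 (eq_of_mem_of_mem h2 b1 t1 b3 t3 hw1 hw hw0)
  have hTw : a • (α • u) + b • (β • v) = γ • (a • u + b • v) := by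
    rw [← hα, ← hβ, ← map_smul, ← map_smul, ← map_add, hab, hγ]
  have hzero : (a * α - γ * a) • u + (b * β - γ * b) • v = 0 := by
    have h0 := sub_eq_zero.mpr hTw
    rw [← h0]
    simp only [smul_add, smul_smul, sub_smul]
    abel
  obtain ⟨h1, h2'⟩ := (LinearIndependent.pair_iff.mp hli) _ _ hzero
  have hαγ : α = γ := by
    have : a * (α - γ) = 0 := by linear_combination h1
    rcases mul_eq_zero.mp this with h | h
    · exact absurd h ha
    · exact sub_eq_zero.mp h
  have hβγ : β = γ := by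
    have : b * (β - γ) = 0 := by linear_combination h2'
    rcases mul_eq_zero.mp this with h | h
    · exact absurd h hb
    · exact sub_eq_zero.mp h
  refine ⟨γ, fun x => ?_⟩
  obtain ⟨s, t, rfl⟩ := hmem x
  rw [map_add, map_smul, map_smul, hα, hβ, hαγ, hβγ, smul_add, smul_comm s γ u,
    smul_comm t γ v]

end Lines

section Clifford

variable {K : Type*} [Field K] {U : Type*} [AddCommGroup U] [Module K U]
variable {Γ : Type*} [Group Γ] (r : Γ →* Module.End K U)

theorem r_inv_apply (g : Γ) (x : U) : r g⁻¹ (r g x) = x := by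
  have h : r g⁻¹ * r g = 1 := by rw [← map_mul, inv_mul_cancel, map_one]
  exact congrArg (fun f : Module.End K U => f x) h

theorem r_apply_inv (g : Γ) (x : U) : r g (r g⁻¹ x) = x := by
  have h : r g * r g⁻¹ = 1 := by rw [← map_mul, mul_inv_cancel, map_one]
  exact congrArg (fun f : Module.End K U => f x) h

theorem r_injective (g : Γ) : Function.Injective (r g) :=
  Function.LeftInverse.injective (r_inv_apply r g)

theorem map_r_mul (g h : Γ) (W : Submodule K U) :
    W.map (r (g * h)) = (W.map (r h)).map (r g) := by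
  rw [map_mul, Module.End.mul_eq_comp, Submodule.map_comp]

theorem map_r_one (W : Submodule K U) : W.map (r 1) = W := by
  rw [map_one]
  exact Submodule.map_id W

/-- The stabiliser of a subspace. -/
def stab (W : Submodule K U) : Subgroup Γ where
  carrier := {g | W.map (r g) = W}
  one_mem' := map_r_one r W
  mul_mem' := by
    intro a b ha hb
    show W.map (r (a * b)) = W
    rw [map_r_mul, hb, ha]
  inv_mem' := by
    intro a ha
    show W.map (r a⁻¹) = W
    have h1 : W.map (r a⁻¹) = (W.map (r a)).map (r a⁻¹) := by rw [ha]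
    rw [h1, ← map_r_mul, inv_mul_cancel, map_r_one]

theorem mem_stab {W : Submodule K U} {g : Γ} : g ∈ stab r W ↔ W.map (r g) = W := Iff.rfl

theorem mem_stab_of_stable {W : Submodule K U} {g : Γ} (h : ∀ x ∈ W, r g x ∈ W)
    (h' : ∀ x ∈ W, r g⁻¹ x ∈ W) : g ∈ stab r W := by
  rw [mem_stab]
  apply le_antisymm
  · rintro _ ⟨x, hx, rfl⟩
    exact h x hx
  · intro x hx
    exact ⟨r g⁻¹ x, h' x hx, r_apply_inv r g x⟩

theorem stable_of_mem_stab {W : Submodule K U} {g : Γ} (hg : g ∈ stab r W) (x : U)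
    (hx : x ∈ W) : r g x ∈ W := by
  have h : W.map (r g) = W := hg
  rw [← h]
  exact Submodule.mem_map_of_mem hx

theorem map_r_ne_bot {W : Submodule K U} (hbot : W ≠ ⊥) (g : Γ) : W.map (r g) ≠ ⊥ := by
  intro h
  apply hbot
  rw [Submodule.eq_bot_iff] at h ⊢
  intro x hx
  exact r_injective r g ((h _ (Submodule.mem_map_of_mem hx)).trans (map_zero _).symm)

theorem map_r_ne_top {W : Submodule K U} (htop : W ≠ ⊤) (g : Γ) : W.map (r g) ≠ ⊤ := by
  intro h
  apply htop
  rw [Submodule.eq_top_iff'] at h ⊢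
  intro x
  obtain ⟨y, hy, hyx⟩ := h (r g x)
  rwa [← r_injective r g hyx]

variable [IsAlgClosed K] [FiniteDimensional K U]

/-- **Clifford-type lemma.**  If `r` is irreducible, irreducible on every subgroup of index 2, and
`Δ` is a normal subgroup with cyclic quotient, then `r|_Δ` is irreducible (`dim U = 2`, `K`
algebraically closed). -/
theorem irr_of_normal_cyclic (h2 : finrank K U = 2) (Δ : Subgroup Γ) [hΔn : Δ.Normal]
    (hcyc : IsCyclic (Γ ⧸ Δ))
    (hirr : ∀ W : Submodule K U, (∀ g : Γ, ∀ x ∈ W, r g x ∈ W) → W = ⊥ ∨ W = ⊤)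
    (htw : ∀ G : Subgroup Γ, G.index = 2 → ∀ W : Submodule K U,
      (∀ g ∈ G, ∀ x ∈ W, r g x ∈ W) → W = ⊥ ∨ W = ⊤)
    (W : Submodule K U) (hW : ∀ δ ∈ Δ, ∀ x ∈ W, r δ x ∈ W) : W = ⊥ ∨ W = ⊤ := by
  by_contra hcon
  push Not at hcon
  obtain ⟨hbot, htop⟩ := hcon
  have htransΔ : ∀ g : Γ, ∀ δ ∈ Δ, ∀ x ∈ W.map (r g), r δ x ∈ W.map (r g) := by
    intro g δ hδ x hx
    obtain ⟨y, hy, rfl⟩ := Submodule.mem_map.mp hx
    have hconj : g⁻¹ * δ * g ∈ Δ := by
      have := hΔn.conj_mem δ hδ g⁻¹
      simpa using this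
    have h3 : r δ (r g y) = r g (r (g⁻¹ * δ * g) y) := by
      have h4 : r δ * r g = r g * r (g⁻¹ * δ * g) := by
        rw [← map_mul, ← map_mul]
        congr 1
        group
      exact congrArg (fun f : Module.End K U => f y) h4
    rw [h3]
    exact Submodule.mem_map_of_mem (hW _ hconj y hy)
  by_cases h1 : ∀ g, W.map (r g) = W
  · rcases hirr W (fun g x hx => stable_of_mem_stab r (h1 g) x hx) with h | h
    exacts [hbot h, htop h]
  · push Not at h1
    obtain ⟨g₀, hg₀⟩ := h1
    by_cases h2' : ∀ g, W.map (r g) = W ∨ W.map (r g) = W.map (r g₀)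
    · have hidx : (stab r W).index = 2 := by
        rw [Subgroup.index_eq_two_iff]
        refine ⟨g₀, fun b => ?_⟩
        have hinj : Function.Injective (Submodule.map (r b)) :=
          Submodule.map_injective_of_injective (r_injective r b)
        rcases h2' b with hb | hb
        · right
          refine ⟨hb, fun hbg => ?_⟩
          have h5 : W.map (r (b * g₀)) = W := hbg
          rw [map_r_mul] at h5
          exact hg₀ (hinj (h5.trans hb.symm))
        · left
          refine ⟨?_, fun hb' => ?_⟩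
          · show W.map (r (b * g₀)) = W
            rcases h2' (b * g₀) with h | h
            · exact h
            · exfalso
              rw [map_r_mul] at h
              exact hg₀ (hinj (h.trans hb.symm))
          · have hb'' : W.map (r b) = W := hb'
            exact hg₀ (hb.symm.trans hb'')
      rcases htw (stab r W) hidx W (fun g hg x hx => stable_of_mem_stab r hg x hx) with h | h
      exacts [hbot h, htop h]
    · push Not at h2'
      obtain ⟨g₁, hg₁, hg₁'⟩ := h2'
      have hscal : ∀ δ ∈ Δ, ∃ c : K, ∀ x, r δ x = c • x := fun δ hδ =>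
        scalar_of_three_lines h2 (r δ) (Ne.symm hg₀) (Ne.symm hg₁) (Ne.symm hg₁')
          hbot htop (map_r_ne_bot r hbot g₀) (map_r_ne_top r htop g₀)
          (map_r_ne_bot r hbot g₁) (map_r_ne_top r htop g₁)
          (hW δ hδ) (htransΔ g₀ δ hδ) (htransΔ g₁ δ hδ)
      haveI : Nontrivial U := Module.nontrivial_of_finrank_pos (R := K) (by rw [h2]; norm_num)
      obtain ⟨xbar, hxbar⟩ := IsCyclic.exists_generator (α := Γ ⧸ Δ)
      obtain ⟨γ₀, rfl⟩ := QuotientGroup.mk_surjective xbar
      obtain ⟨μ, hμ⟩ := Module.End.exists_eigenvalue (r γ₀)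
      obtain ⟨e, he⟩ := hμ.exists_hasEigenvector
      have he0 : e ≠ 0 := he.2
      have heq : r γ₀ e = μ • e := he.apply_eq_smul
      have hμ0 : μ ≠ 0 := by
        intro h0
        rw [h0, zero_smul] at heq
        exact he0 (r_injective r γ₀ (heq.trans (map_zero _).symm))
      have heq' : r γ₀⁻¹ e = μ⁻¹ • e := by
        have h6 : r γ₀⁻¹ (r γ₀ e) = e := r_inv_apply r γ₀ e
        rw [heq, map_smul] at h6
        calc r γ₀⁻¹ e = μ⁻¹ • (μ • r γ₀⁻¹ e) := by rw [smul_smul, inv_mul_cancel₀ hμ0, one_smul]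
          _ = μ⁻¹ • e := by rw [h6]
      have hγ₀ : γ₀ ∈ stab r (Submodule.span K {e}) := by
        refine mem_stab_of_stable r (fun x hx => ?_) (fun x hx => ?_)
        · obtain ⟨c, rfl⟩ := Submodule.mem_span_singleton.mp hx
          rw [map_smul, heq]
          exact Submodule.smul_mem _ _ (Submodule.smul_mem _ _ (Submodule.mem_span_singleton_self e))
        · obtain ⟨c, rfl⟩ := Submodule.mem_span_singleton.mp hx
          rw [map_smul, heq']
          exact Submodule.smul_mem _ _ (Submodule.smul_mem _ _ (Submodule.mem_span_singleton_self e))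
      have hΔL : Δ ≤ stab r (Submodule.span K {e}) := by
        intro δ hδ
        refine mem_stab_of_stable r (fun x hx => ?_) (fun x hx => ?_)
        · obtain ⟨c, hc⟩ := hscal δ hδ
          rw [hc]
          exact Submodule.smul_mem _ _ hx
        · obtain ⟨c, hc⟩ := hscal δ⁻¹ (Δ.inv_mem hδ)
          rw [hc]
          exact Submodule.smul_mem _ _ hx
      have hall : ∀ g : Γ, g ∈ stab r (Submodule.span K {e}) := by
        intro g
        obtain ⟨n, hn⟩ := Subgroup.mem_zpowers_iff.mp (hxbar (g : Γ ⧸ Δ))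
        have h7 : ((γ₀ ^ n : Γ) : Γ ⧸ Δ) = (g : Γ ⧸ Δ) := by
          rw [QuotientGroup.mk_zpow]
          exact hn
        have hmem : (γ₀ ^ n)⁻¹ * g ∈ Δ := QuotientGroup.eq.mp h7
        have h8 : g = γ₀ ^ n * ((γ₀ ^ n)⁻¹ * g) := by group
        rw [h8]
        exact (stab r _).mul_mem ((stab r _).zpow_mem hγ₀ n) (hΔL hmem)
      rcases hirr (Submodule.span K {e}) (fun g x hx => stable_of_mem_stab r (hall g) x hx)
        with h | h
      · exact he0 (Submodule.span_singleton_eq_bot.mp h)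
      · have h9 := finrank_span_singleton (K := K) he0
        rw [h, finrank_top, h2] at h9
        omega

end Clifford

end Fermat.Agent.S56.P3.H769
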