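import Fermat.Agent.S56.P3.Spec
import Fermat.Agent.S29.H872.Burnside
import Fermat.Agent.S56.P3.H769.Lines

/-!
# S56 / P3, piece SPAN (helper769): `spanDelta : SpanDeltaStatement`

Under `TWHyp ρ p`, for `Δ ⊴ Γ` with cyclic quotient, the `k`-span of `ρ(Δ)` is `End V`.

Proof: base change to `K = AlgebraicClosure k`; `ρ_K|_Δ` is irreducible by the Clifford-type lemma
`irr_of_normal_cyclic` (from `absIrr` and `tw`); Burnside (landed `S29.H872.burnside`) gives
`K`-span `= End_K (K ⊗ V)`, of dimension `4`; the `K`-span is generated by the image of a `k`-basis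
of the `k`-span, so the `k`-span has dimension `≥ 4`.  (`split` and `p ≠ 2` are not needed.)
-/

set_option autoImplicit false
set_option linter.style.haveILetI false

namespace Fermat.Agent.S56.P3.H769

open Module
open scoped TensorProduct

/-- **Piece SPAN** of `S56/P3`. -/
theorem spanDelta : SpanDeltaStatement := by
  intro k _ V _ _ _ Γ _ ρ p _ _ hyp Δ _ hcyc
  classical
  let β : Module.End k V →ₐ[k] Module.End (AlgebraicClosure k) (AlgebraicClosure k ⊗[k] V) :=
    Module.End.baseChangeHom k (AlgebraicClosure k) V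
  let r : Γ →* Module.End (AlgebraicClosure k) (AlgebraicClosure k ⊗[k] V) :=
    (β : Module.End k V →* _).comp ρ
  have hr : ∀ g, r g = (ρ g).baseChange (AlgebraicClosure k) := fun g => rfl
  have h2 : finrank (AlgebraicClosure k) (AlgebraicClosure k ⊗[k] V) = 2 := by
    rw [Module.finrank_baseChange, hyp.finrank_eq]
  haveI : Nontrivial (AlgebraicClosure k ⊗[k] V) :=
    Module.nontrivial_of_finrank_pos (R := AlgebraicClosure k) (by rw [h2]; norm_num)
  -- Clifford: `r|_Δ` is irreducible
  have hirrΔ := irr_of_normal_cyclic r h2 Δ hcyc (fun W hW => hyp.absIrr W hW)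
    (fun G hG W hW => hyp.tw (AlgebraicClosure k) G hG W hW)
  -- Burnside
  have hA : Algebra.adjoin (AlgebraicClosure k) (Set.range fun δ : Δ => r δ) = ⊤ :=
    Fermat.Agent.S29.H872.burnside _ (fun W hW => hirrΔ W (fun δ hδ x hx =>
      hW (r δ) (Algebra.subset_adjoin ⟨⟨δ, hδ⟩, rfl⟩) hx))
  -- descent of the dimension
  by_contra hB
  have hlt : finrank k (Submodule.span k (Set.range fun δ : Δ => ρ (δ : Γ))) < 4 := by
    have h := Submodule.finrank_lt hB
    rwa [Module.finrank_linearMap, hyp.finrank_eq] at h
  let b := Module.finBasis k (Submodule.span k (Set.range fun δ : Δ => ρ (δ : Γ)))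
  have hspan : Subalgebra.toSubmodule
        (Algebra.adjoin (AlgebraicClosure k) (Set.range fun δ : Δ => r δ)) ≤
      Submodule.span (AlgebraicClosure k)
        (Set.range fun i => β ((b i : _) : Module.End k V)) := by
    rw [Algebra.adjoin_eq_span]
    have hcl : (Submonoid.closure (Set.range fun δ : Δ => r δ) : Set _) =
        Set.range fun δ : Δ => r δ := by
      have h1 : Set.range (fun δ : Δ => r δ) =
          ((MonoidHom.mrange (r.comp Δ.subtype) : Submonoid _) : Set _) := by
        ext y
        simp
      rw [h1, Submonoid.closure_eq]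
    rw [hcl, Submodule.span_le]
    rintro _ ⟨δ, rfl⟩
    have hmem : ρ (δ : Γ) ∈ Submodule.span k (Set.range fun δ : Δ => ρ (δ : Γ)) :=
      Submodule.subset_span ⟨δ, rfl⟩
    have hrepr := b.sum_repr ⟨ρ (δ : Γ), hmem⟩
    have h3 : ρ (δ : Γ) = ∑ i, b.repr ⟨ρ (δ : Γ), hmem⟩ i • ((b i : _) : Module.End k V) := by
      have h4 := congrArg Subtype.val hrepr
      simp only [Submodule.coe_sum, Submodule.coe_smul] at h4
      exact h4.symm
    have h5 : r δ = ∑ i, algebraMap k (AlgebraicClosure k) (b.repr ⟨ρ (δ : Γ), hmem⟩ i) •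
        β ((b i : _) : Module.End k V) := by
      show β (ρ (δ : Γ)) = _
      conv_lhs => rw [h3]
      rw [map_sum]
      refine Finset.sum_congr rfl fun i _ => ?_
      rw [map_smul, algebraMap_smul]
    show r δ ∈ _
    rw [h5]
    exact Submodule.sum_mem _ fun i _ =>
      Submodule.smul_mem _ _ (Submodule.subset_span ⟨i, rfl⟩)
  have hfr : finrank (AlgebraicClosure k) (Subalgebra.toSubmodule
        (Algebra.adjoin (AlgebraicClosure k) (Set.range fun δ : Δ => r δ))) ≤
      finrank k (Submodule.span k (Set.range fun δ : Δ => ρ (δ : Γ))) := by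
    calc finrank (AlgebraicClosure k) (Subalgebra.toSubmodule
          (Algebra.adjoin (AlgebraicClosure k) (Set.range fun δ : Δ => r δ)))
        ≤ finrank (AlgebraicClosure k) (Submodule.span (AlgebraicClosure k)
          (Set.range fun i => β ((b i : _) : Module.End k V))) := Submodule.finrank_mono hspan
      _ ≤ Fintype.card (Fin (finrank k
          (Submodule.span k (Set.range fun δ : Δ => ρ (δ : Γ))))) := finrank_range_le_card _
      _ = finrank k (Submodule.span k (Set.range fun δ : Δ => ρ (δ : Γ))) := Fintype.card_fin _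
  rw [hA, Algebra.top_toSubmodule, finrank_top, Module.finrank_linearMap, h2] at hfr
  omega

end Fermat.Agent.S56.P3.H769
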